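import Fermat.Agent.GAL.KLC.RI
import Fermat.Agent.GAL.KLC.MainOf
import Fermat.Agent.GAL.CTV.ExistsTDataCore
import Fermat.Agent.GAL.CTV.OfTData
import Fermat.Agent.GAL.CTV.Haupt
import Fermat.Agent.GAL.CT.Q.ThetaJ
import Fermat.Agent.GAL.CTV.Z.Main
import Fermat.Agent.GAL.CTV.Z.Forms
import Fermat.Agent.GAL.CTV.Z.IntFin
import Fermat.Agent.GAL.CTV.Z.IntInf

/-!
# GAL / Red : `KeyLemmaStatement` from the two statements of package CT-Z2 (`z_mem_FL`, `z_Psi`),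
against the landed files of KL / KLB / KLC / CT / CTV.
-/

set_option autoImplicit false

open Polynomial ModularCurve AlgebraicCurve UpperHalfPlane
open scoped MatrixGroups

noncomputable section

namespace Fermat.Agent.GAL.Red

open Fermat.Agent.GAL.KL Fermat.Agent.GAL.KLC Fermat.Agent.S24 Fermat.Agent.GAL.CTV

/-- contract Z2 (a). -/
def ZMemStatement : Prop :=
  ∀ (M : ℕ) [NeZero M] (G : MF12 M) (GZ : PowerSeries ℤ),
    qExpansion 1 (G : ℍ → ℂ) = GZ.map (Int.castRingHom ℂ) → cZ Qb (pZ GZ * DZi) ∈ FL Qb M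

/-- contract Z2 (b). -/
def ZPsiStatement : Prop :=
  ∀ (M : ℕ) [NeZero M] (G : MF12 M) (GZ : PowerSeries ℤ),
    qExpansion 1 (G : ℍ → ℂ) = GZ.map (Int.castRingHom ℂ) →
    ∀ h : cZ Qb (pZ GZ * DZi) ∈ FL Qb M,
      Psi M (⟨_, h⟩ : FN M) = algebraMap (MerMod M) (LL M) (Genus.formsT M 1 G)

theorem z0_mem_of (h1 : ZMemStatement) (M : ℕ) [NeZero M] (fZ : PowerSeries ℤ)
    (hf : IsCuspExp M fZ) : cZ Qb (z0Z fZ) ∈ FL Qb M := by
  obtain ⟨G, hG⟩ := z_form_z0 M fZ hf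
  have := h1 M G _ hG
  have e : pZ (fZ * eisenstein4 * CTV.eisenstein6) * DZi = z0Z fZ := by
    simp only [z0Z, E4Z, E6Z, pZ, map_mul]
  rwa [e] at this

theorem coe_JJ (M : ℕ) : ((JJ M : FN M) : LaurentSeries Qb) = cZ Qb jZ := by
  show coeffEmb Qb (qExpand ℚ 1 jq) = cZ Qb jZ
  rw [qExpand_one_apply, ← cZ_rat_jZ, coeffEmb_cZ]

theorem isInt_coe {M : ℕ} {t x : FN M} (h : IsInt Qb t x) :
    IsInt Qb (t : LaurentSeries Qb) (x : LaurentSeries Qb) := by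
  obtain ⟨p, hp, hpx⟩ := h
  refine ⟨p, hp, ?_⟩
  have h1 := congrArg (algebraMap (FN M) (LaurentSeries Qb)) hpx
  rw [map_zero, Polynomial.hom_eval₂] at h1
  have h2 : (algebraMap (FN M) (LaurentSeries Qb)).comp
      ((aeval t : Qb[X] →ₐ[Qb] FN M) : Qb[X] →+* FN M) =
      ((aeval (t : LaurentSeries Qb) : Qb[X] →ₐ[Qb] LaurentSeries Qb) :
        Qb[X] →+* LaurentSeries Qb) := by
    apply Polynomial.ringHom_ext
    · intro a
      simp
    · simp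
  rw [h2] at h1
  exact h1

theorem z3Facts_of (h1 : ZMemStatement) (h2 : ZPsiStatement) (M : ℕ) [NeZero M]
    (fZ : PowerSeries ℤ) (hf : IsCuspExp M fZ) : Z3Facts M fZ := by
  obtain ⟨G, hGc, hG⟩ := z_form_g M fZ hf
  have hm := h1 M G _ hG
  have hP := h2 M G _ hG hm
  have e : pZ (fZ ^ 6) * DZi = gZ fZ := by
    simp only [gZ, pZ, map_pow]
  refine ⟨by rwa [e] at hm, ?_, ?_⟩
  · have := isInt_coe (z_isInt_of_Psi M _ _ hP)
    rw [coe_JJ] at this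
    simpa only [e] using this
  · have := isInt_coe (z_isInt_inf_of_Psi M _ _ hP (fun γ => z_Winf_cusp M G hGc γ))
    have e1 : (((JJ M)⁻¹ : FN M) : LaurentSeries Qb) = (cZ Qb jZ)⁻¹ := by
      rw [← coe_JJ M]; rfl
    rw [e1] at this
    have e2 : ((((⟨_, hm⟩ : FN M) ^ M * (JJ M)⁻¹ ^ (M - 1) : FN M)) : LaurentSeries Qb) =
        cZ Qb (gZ fZ) ^ M * (cZ Qb jZ)⁻¹ ^ (M - 1) := by
      rw [← e, ← e1]; rfl
    rwa [e2] at this

/-- (b2) from the two contracts. -/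
theorem ctStatement_of (h1 : ZMemStatement) (h2 : ZPsiStatement) (M ℓ : ℕ) [NeZero M]
    (hM : AdmLevel M) (hℓ : ℓ.Prime) (hℓM : ¬ ℓ ∣ M) (A : ValuationSubring Qb)
    (hA : A.LiesOverPrime ℓ) : CTStatement M A := by
  intro z hz φ hred hint fZ hf
  have : Fact ℓ.Prime := ⟨hℓ⟩
  have : CharP (kA A) ℓ := GR.charP_residueField hℓ hA
  have : PerfectField (kA A) := perfectField_kA hℓ A hA
  have hZ := z3Facts_of h1 h2 M fZ hf
  obtain ⟨t, ht⟩ := exists_tdata_core M ℓ hM hℓM A hA fZ CT.jZ_mul_DZ CT.jZ_sub_mul_DZ CT.theta_jZ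
    haupt2 haupt3 (z0_mem_of h1 M fZ hf) (isInt_g_of M ℓ hℓM (kA A) fZ hZ)
    ⟨M, Nat.pos_of_ne_zero (NeZero.ne M), isInt_g_inf_of M ℓ hℓM (kA A) fZ hZ⟩
  have hzi : (⟨z, hz⟩ : FL Qb M) ∈ (vG A M).integer := (mem_integer_iff A M).mpr ⟨φ, hred⟩
  have hρz : rho A M ⟨⟨z, hz⟩, hzi⟩ = φ := rho_eq_of_hasRed A M hred
  have := ct_of_tdata (isRed A M) (xF_mem_integer M A) (xF'_mem_integer M A) (mX_pos M)
    (order_rho_xF M A) (order_rho_xF' M A) (spans M) ht ⟨⟨z, hz⟩, hzi⟩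
    (by rw [hρz, rho_xF]; exact hint)
  rwa [hρz] at this

/-- **`KeyLemmaStatement` from the two contracts of CT-Z2.** -/
theorem keyLemma_of_Z (h1 : ZMemStatement) (h2 : ZPsiStatement) : KeyLemmaStatement :=
  keyLemmaStatement_of (fun M _ => spansStatement M) (fun M _ => riStatement M)
    (fun M ℓ _ hM hℓ hℓM A hA => ctStatement_of h1 h2 M ℓ hM hℓ hℓM A hA)

end Fermat.Agent.GAL.Red
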