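import Fermat.Agent.GAL.ModuleDefs
import Fermat.Agent.GAL.KL.Main
import Fermat.Agent.GAL.KLB.Count
import Fermat.Agent.GAL.KLC.ValThm
import Fermat.Agent.GAL.KLC.ValArch
import Fermat.Agent.GAL.KLC.GaussON
import Fermat.Agent.GAL.KLC.LocPow
import Fermat.Agent.GAL.KLC.CuspBasis
import Fermat.Agent.GAL.KLC.XSeries
import Fermat.Agent.GAL.KLC.XMem
import Fermat.Agent.S24.Mod.Degree

/-!
# GAL / Red : `KeyLemmaStatement` from the three contracts of KL which are still missing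
(`spans`, `finrank_LL_ge`, `ct_zero`), against the landed files of KL / KLB / KLC.
-/

set_option autoImplicit false

open ModularCurve AlgebraicCurve Polynomial

noncomputable section

namespace Fermat.Agent.GAL.Red

open Fermat.Agent.GR Fermat.Agent.GAL.KL Fermat.Agent.GAL.KLC

/-- contract X3. -/
def SpansStatement : Prop :=
  ∀ (M : ℕ) [NeZero M], Spans Qb (⟨xR Qb M, xR_mem M⟩ : FL Qb M)
    (fun i : Fin (mX M) => (⟨xR' Qb M, xR'_mem M⟩ : FL Qb M) ^ (i : ℕ))

/-- contract RI2. -/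
def RIStatement : Prop :=
  ∀ (M : ℕ) [NeZero M] (a : ℕ),
    ((a * mX M + 1 : ℕ) : ℤ) - (Module.finrank ℂ (CuspForm (CongruenceSubgroup.Gamma0 M) 2) : ℕ)
      ≤ Module.finrank Qb (LL Qb (⟨xR Qb M, xR_mem M⟩ : FL Qb M) a)

/-- contract CT = (b2). -/
def CtZeroStatement : Prop :=
  ∀ (M ℓ : ℕ) [NeZero M] [Fact ℓ.Prime], AdmLevel M → ¬ ℓ ∣ M →
    ∀ A : ValuationSubring Qb, A.LiesOverPrime ℓ → ∀ z : LaurentSeries Qb, z ∈ FL Qb M →
    ∀ φ : LaurentSeries (kA A), HasRed A z φ → IsInt (kA A) (xR (kA A) M) φ →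
    ∀ fZ : PowerSeries ℤ, IsCuspExp M fZ → (φ * psR (kA A) fZ).coeff 0 = 0

theorem order_of_eq' {R : Type*} [CommRing R] [Nontrivial R] (y : LaurentSeries ℤ) (e : ℤ)
    (h : ∃ u : PowerSeries ℤ, PowerSeries.constantCoeff u = 1 ∧
      y = HahnSeries.single e 1 * HahnSeries.ofPowerSeries ℤ ℤ u) :
    (coeffMap (Int.castRingHom R) y).order = e := by
  obtain ⟨u, hu, rfl⟩ := h
  have hc : ∀ n : ℤ, (coeffMap (Int.castRingHom R)
      (HahnSeries.single e 1 * HahnSeries.ofPowerSeries ℤ ℤ u)).coeff n =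
        (((HahnSeries.ofPowerSeries ℤ ℤ u).coeff (n - e) : ℤ) : R) := by
    intro n
    rw [coeffMap_coeff]
    have : n = (n - e) + e := by ring
    conv_lhs => rw [this, HahnSeries.coeff_single_mul_add, one_mul]
    rfl
  have hne : coeffMap (Int.castRingHom R)
      (HahnSeries.single e 1 * HahnSeries.ofPowerSeries ℤ ℤ u) ≠ 0 := by
    intro h0
    have := hc e
    rw [h0, sub_self] at this
    have h1 : (HahnSeries.ofPowerSeries ℤ ℤ u).coeff 0 = 1 := by
      have := PowerSeries.coeff_coe u 0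
      simpa [hu] using this
    rw [h1] at this
    simp at this
  apply le_antisymm
  · apply HahnSeries.order_le_of_coeff_ne_zero
    rw [hc e, sub_self]
    have h1 : (HahnSeries.ofPowerSeries ℤ ℤ u).coeff 0 = 1 := by
      have := PowerSeries.coeff_coe u 0
      simpa [hu] using this
    rw [h1]
    simp
  · rw [HahnSeries.le_order_iff_forall hne]
    intro b hb
    rw [hc b]
    have h1 : (HahnSeries.ofPowerSeries ℤ ℤ u).coeff (b - e) = 0 := by
      have := PowerSeries.coeff_coe u (b - e)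
      rw [if_pos (by omega)] at this
      exact this
    rw [h1, Int.cast_zero]

theorem order_psR_pos' {k : Type*} [Field k] (f : PowerSeries ℤ)
    (h0 : PowerSeries.constantCoeff f = 0) (hne : psR k f ≠ 0) : 0 < (psR k f).order := by
  have h1 : (0 : ℤ) + 1 ≤ (psR k f).order := by
    rw [HahnSeries.le_order_iff_forall hne]
    intro b hb
    have := PowerSeries.coeff_coe (f.map (Int.castRingHom k)) b
    unfold psR
    rcases lt_or_eq_of_le (show b ≤ 0 by omega) with hb' | rfl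
    · rw [if_pos hb'] at this
      exact this
    · rw [if_neg (lt_irrefl _)] at this
      refine this.trans ?_
      simp [h0]
  omega

/-- **`KeyLemmaStatement` from the three missing contracts.** -/
theorem keyLemma_of (hSp : SpansStatement) (hRI : RIStatement) (hCT : CtZeroStatement) :
    KeyLemmaStatement := by
  intro M n ℓ hM0 hM hℓ hℓM hℓn A hA W hW hW0 hred hdiv
  have : NeZero M := ⟨hM0⟩
  have : Fact ℓ.Prime := ⟨hℓ⟩
  have hn : 0 < n := Nat.pos_of_ne_zero (by rintro rfl; exact hℓn (dvd_zero _))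
  have : CharP (kA A) ℓ := charP_residueField hℓ hA
  have hρ := isRed A M
  obtain ⟨hx, hxρ⟩ := rho_int A M (XZ M) (xR_mem M)
  obtain ⟨hx', hxρ'⟩ := rho_int A M (XZ' M) (xR'_mem M)
  set xF : FL Qb M := ⟨xR Qb M, xR_mem M⟩ with hxF
  set xF' : FL Qb M := ⟨xR' Qb M, xR'_mem M⟩ with hxF'
  have hxo : (rho A M ⟨xF, hx⟩).order = -(mX M : ℤ) := by
    rw [show rho A M ⟨xF, hx⟩ = _ from hxρ]; exact order_of_eq' _ _ (XZ_eq M)
  have hxo' : (rho A M ⟨xF', hx'⟩).order = -(mX M : ℤ) + 1 := by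
    rw [show rho A M ⟨xF', hx'⟩ = _ from hxρ']; exact order_of_eq' _ _ (XZ'_eq M)
  have hm := mX_pos M
  have hG : Gauss Qb (vG A M) xF := gauss_of_isRed hρ hx (by rw [hxo]; omega)
  have hON := on_of_isRed hρ hx hx' hm hxo hxo'
  obtain ⟨fZ, hfc, hf0, hfi⟩ := exists_cusp_basis M ℓ hℓ (kA A)
  obtain ⟨hr0, hroo⟩ := KLB.rootClosed_of_count hρ hx hx' hm hxo hxo' (hSp M) (hRI M)
    (fun j => psR (kA A) (fZ j)) hfi (fun j => order_psR_pos' _ (hf0 j) (hfi.ne_zero j))
    (fun z hz j => hCT M ℓ hM hℓM A hA _ (z : FL Qb M).2 _ (hasRed_rho A M z)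
      (by rw [hxρ] at hz; exact hz) _ (hfc j)) n hn
  have hw : vG A M ((⟨W, hW⟩ : FL Qb M) - 1) < 1 := vG_sub_one_lt A M hred
  have hw0 : (⟨W, hW⟩ : FL Qb M) ≠ 0 := fun h => hW0 (congrArg Subtype.val h)
  have htr : Transcendental Qb xF := by
    rw [transcendental_iff]
    intro p hp
    exact hG.inj p hp
  have htr' : Transcendental Qb xF⁻¹ := S24.FF.transcendental_inv htr
  obtain ⟨y, hy⟩ := keyLemma (arch A M hℓ hA) hG _ hON (hSp M) hn (vG_natCast A M hℓ hA hℓn)
    hr0 hroo hw (fun c => locPow_of_dvd htr hn hw0 hdiv c)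
    (fun c => locPow_of_dvd htr' hn hw0 hdiv c)
  exact ⟨y, y.2, congrArg Subtype.val hy⟩

end Fermat.Agent.GAL.Red
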