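import Fermat.Statements.S29
import Fermat.Agent.GAL.ASM.S29AlgClosed
import Fermat.Agent.GAL.HK.Bridge
import Fermat.Agent.GAL.HK.CohBasic
import Fermat.Agent.GAL.HK.CohEigen
import Fermat.Agent.GAL.Cheb.Export
import Fermat.Agent.GAL.Module
import Fermat.Agent.GAL.AN.Main

/-!
# GAL / Red : S29 from the single contract which is still missing, `KeyLemmaStatement`

Everything else (HK, CHEB, AN + DESC, ESR, the integration theorem, ASM) is consumed here in its
landed form, so this file is the typechecked end-to-end chain of S29.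
-/

set_option autoImplicit false
open CuspForm CuspForm.IsNormalizedEigenform

namespace Fermat.Agent.GAL.Red

/-- the contract `HgmStatement` of ASM from the key lemma. -/
theorem hgmStatement_of_keyLemma (hK : KeyLemmaStatement) : HgmStatement := by
  intro M n _ _ hM
  obtain ⟨H, Ψ, hΨ, hT⟩ := exists_hgm_of hK M n hM (exists_anPackage M n hM)
  exact ⟨H.V, H.acg, H.mod, H.gal, H.T, H.comm, H.smooth, H.es, H.inertia, Ψ, hΨ, hT⟩

/-- **S29 from the key lemma.** -/
theorem S29_of_keyLemma (hK : KeyLemmaStatement)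
    {N : ℕ} {g : CuspForm (CongruenceSubgroup.Gamma0 N) 2} (hg : g.IsNormalizedEigenform)
    {p : ℕ} (hp : p.Prime) {k : Type} [Field k] [CharP k p]
    (φ : integralClosure ℤ ℂ →+* k) :
    ∃ ρ : ResidualGaloisRep k, ρ.IsAttachedTo g φ ∧
      ∀ ℓ : ℕ, ℓ.Prime → ¬ ℓ ∣ N * p → ρ.IsUnramifiedAt ℓ :=
  S29_of_contracts
    (fun M l _ hl hlM _ _ P g => heckeCoh_apply M l hl hlM P g)
    (fun M l _ hl hlM _ _ P hP => heckeCoh_isParabolicHom M l hl hlM P hP)
    (fun hNM _ hg _ _ phi => coh_eigen hNM hg phi)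
    (hgmStatement_of_keyLemma hK) Cheb.weakChebotarev_asm hg hp φ

end Fermat.Agent.GAL.Red
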